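import Fermat.Agent.PisanoPeriod.Basic
import Mathlib.NumberTheory.ArithmeticFunction.Moebius
import Mathlib.NumberTheory.Real.GoldenRatio
import Mathlib.RingTheory.Polynomial.Cyclotomic.Basic

/-!
# The cyclotomic parts of the Fibonacci numbers

`F n = ∏_{d ∣ n, d ≠ 1} Q d` in `ℤ[φ]`, and `|Q n| ≥ φ ^ φ(n) / 3` at both real places.
-/

set_option autoImplicit false

noncomputable section

namespace FA.FibonacciPrimitive

open QuadraticAlgebra FA.PisanoPeriod Finset Polynomial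

/-- The homogeneous cyclotomic value at `(ω, 1 - ω)`. -/
def cycPart (n : ℕ) : Golden ℤ :=
  (1 - w ℤ) ^ n.totient * aeval (-w ℤ ^ 2) (cyclotomic n ℤ)

theorem pow_sub_conj_pow (n : ℕ) :
    w ℤ ^ n - (1 - w ℤ) ^ n = ((n.fib : ℕ) : Golden ℤ) * (2 * w ℤ - 1) := by
  induction n using Nat.twoStepInduction with
  | zero => simp
  | one => simp only [pow_one, Nat.fib_one, Nat.cast_one, one_mul]; ring
  | more n h1 h2 =>
    rw [Nat.fib_add_two, Nat.cast_add, pow_add _ n 2, pow_add _ n 2, add_mul, ← h1, ← h2]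
    linear_combination (w ℤ ^ n - (1 - w ℤ) ^ n) * w_mul_sub_one ℤ

theorem prod_cycPart {n : ℕ} (hn : 0 < n) :
    ∏ d ∈ n.divisors, cycPart d = w ℤ ^ n - (1 - w ℤ) ^ n := by
  simp only [cycPart, prod_mul_distrib, prod_pow_eq_pow_sum, Nat.sum_totient, ← map_prod,
    prod_cyclotomic_eq_X_pow_sub_one hn, map_sub, map_pow, aeval_X, map_one]
  rw [mul_sub, ← mul_pow, mul_one,
    show (1 - w ℤ) * -w ℤ ^ 2 = w ℤ by linear_combination w ℤ * w_mul_sub_one ℤ]

theorem fib_eq_prod {n : ℕ} (hn : 0 < n) :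
    ((n.fib : ℕ) : Golden ℤ) = ∏ d ∈ n.divisors.erase 1, cycPart d := by
  have h := prod_cycPart hn
  rw [← mul_prod_erase _ _ (Nat.one_mem_divisors.2 hn.ne'), pow_sub_conj_pow] at h
  have h1 : cycPart 1 = 2 * w ℤ - 1 := by
    simp only [cycPart, Nat.totient_one, pow_one, cyclotomic_one, map_sub, aeval_X, map_one]
    linear_combination w ℤ * w_mul_sub_one ℤ
  rw [h1] at h
  have h5 : (5 : ℤ) • (((n.fib : ℕ) : Golden ℤ) - ∏ d ∈ n.divisors.erase 1, cycPart d) = 0 := by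
    rw [zsmul_eq_mul]
    push_cast
    linear_combination (1 - 2 * w ℤ) * h - 4 *
      (((n.fib : ℕ) : Golden ℤ) - ∏ d ∈ n.divisors.erase 1, cycPart d) * w_mul_sub_one ℤ
  rw [QuadraticAlgebra.ext_iff] at h5
  simp only [re_smul, im_smul, re_sub, im_sub, re_zero, im_zero, smul_eq_mul, mul_eq_zero,
    sub_eq_zero, OfNat.ofNat_ne_zero, false_or] at h5
  exact QuadraticAlgebra.ext h5.1 h5.2

theorem fib_eq_mul {n : ℕ} (hn : 2 ≤ n) :
    ((n.fib : ℕ) : Golden ℤ) = cycPart n * ∏ d ∈ (n.divisors.erase 1).erase n, cycPart d := by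
  rw [fib_eq_prod (by omega), mul_prod_erase _ _
    (mem_erase.2 ⟨by omega, Nat.mem_divisors_self n (by omega)⟩)]

theorem fib_dvd_prod {m n : ℕ} (hn : 0 < n) (hm : m ∣ n) (hmn : m < n) :
    ((m.fib : ℕ) : Golden ℤ) ∣ ∏ d ∈ (n.divisors.erase 1).erase n, cycPart d := by
  have hm0 : 0 < m := Nat.pos_of_dvd_of_pos hm hn
  rw [fib_eq_prod hm0]
  refine prod_dvd_prod_of_subset _ _ _ fun d hd => ?_
  rw [mem_erase, Nat.mem_divisors] at hd
  have := Nat.le_of_dvd hm0 hd.2.1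
  exact mem_erase.2 ⟨by omega, mem_erase.2 ⟨hd.1, Nat.mem_divisors.2 ⟨hd.2.1.trans hm, hn.ne'⟩⟩⟩

/-- A real place. -/
def place (r : ℝ) (hr : r * r = 1 + r) : Golden ℤ →+* ℝ :=
  (QuadraticAlgebra.lift (R := ℤ) (a := 1) (b := 1) ⟨r, by simpa using hr⟩).toRingHom

theorem place_apply (r : ℝ) (hr : r * r = 1 + r) (z : Golden ℤ) :
    place r hr z = z.re + z.im * r := by
  simp [place, QuadraticAlgebra.lift]

/-- The place `ω ↦ φ`. -/
def placeφ : Golden ℤ →+* ℝ :=
  place Real.goldenRatio (by rw [← sq, Real.goldenRatio_sq]; ring)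

/-- The place `ω ↦ ψ`. -/
def placeψ : Golden ℤ →+* ℝ :=
  place Real.goldenConj (by rw [← sq, Real.goldenConj_sq]; ring)

theorem one_sub_sum_le {ι : Type*} (s : Finset ι) (u : ι → ℝ) (h0 : ∀ i ∈ s, 0 ≤ u i)
    (h1 : ∀ i ∈ s, u i ≤ 1) : 1 - ∑ i ∈ s, u i ≤ ∏ i ∈ s, (1 - u i) := by
  classical
  induction s using Finset.induction with
  | empty => simp
  | @insert a s ha ih =>
    rw [sum_insert ha, prod_insert ha]
    have := ih (fun i hi => h0 i (mem_insert_of_mem hi)) (fun i hi => h1 i (mem_insert_of_mem hi))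
    have hs : 0 ≤ ∑ i ∈ s, u i := sum_nonneg fun i hi => h0 i (mem_insert_of_mem hi)
    nlinarith [h0 a (mem_insert_self a s), h1 a (mem_insert_self a s)]

/-- If `∏_{d ∣ n} f d = |1 - y ^ n|` for all `n`, then `f n ≥ 1 / 3` for `|y| ≤ 2 / 5`. -/
theorem third_le_of_prod_eq {f : ℕ → ℝ} {y : ℝ} (hy : |y| ≤ 2 / 5)
    (hf : ∀ n > 0, ∏ d ∈ n.divisors, f d = |1 - y ^ n|) {n : ℕ} (hn : 0 < n) : 1 / 3 ≤ f n := by
  have hlt : ∀ d : ℕ, 0 < d → |y| ^ d ≤ 2 / 5 := fun d hd =>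
    (pow_le_of_le_one (abs_nonneg y) (by linarith) hd.ne').trans hy
  have hb : ∀ d : ℕ, 0 < d → 1 - |y| ^ d ≤ |1 - y ^ d| ∧ |1 - y ^ d| ≤ 1 + |y| ^ d := fun d _ => by
    have h1 := abs_sub_abs_le_abs_sub 1 (y ^ d)
    have h2 := abs_sub 1 (y ^ d)
    rw [abs_one, abs_pow] at h1 h2
    exact ⟨h1, h2⟩
  have hg : ∀ d : ℕ, 0 < d → |1 - y ^ d| ≠ 0 := fun d hd => by linarith [(hb d hd).1, hlt d hd]
  have hf0 : ∀ d : ℕ, 0 < d → f d ≠ 0 := fun d hd h => hg d hd <| by
    rw [← hf d hd, prod_eq_zero (Nat.mem_divisors_self d hd.ne') h]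
  have h := (ArithmeticFunction.prod_eq_iff_prod_pow_moebius_eq_of_nonzero hf0 hg).1 hf n hn
  rw [← h]
  have hsum : ∑ d ∈ n.divisors, |y| ^ d ≤ 2 / 3 := by
    refine (sum_le_sum_of_subset_of_nonneg (s := n.divisors) (t := Icc 1 n) (fun d hd => mem_Icc.2
      ⟨Nat.pos_of_mem_divisors hd, Nat.divisor_le hd⟩) fun d _ _ => by positivity).trans ?_
    have hgs : ∀ N, ∑ d ∈ Icc 1 N, |y| ^ d ≤ 2 / 3 * (1 - |y| ^ N) := by
      intro N
      induction N with
      | zero => simp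
      | succ N ih =>
        rw [sum_Icc_succ_top (by omega), pow_succ]
        nlinarith [pow_nonneg (abs_nonneg y) N, abs_nonneg y]
    nlinarith [hgs n, pow_nonneg (abs_nonneg y) n]
  have hprod := one_sub_sum_le n.divisors (fun d => |y| ^ d) (fun d _ => by positivity)
    fun d hd => (hlt d (Nat.pos_of_mem_divisors hd)).trans (by norm_num)
  rw [Nat.prod_divisorsAntidiagonal'
    (f := fun a b => |1 - y ^ b| ^ ArithmeticFunction.moebius a)]
  refine le_trans (by linarith) (hprod.trans (prod_le_prod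
    (fun d hd => by linarith [hlt d (Nat.pos_of_mem_divisors hd)]) fun d hd => ?_))
  obtain ⟨l1, l2⟩ := hb d (Nat.pos_of_mem_divisors hd)
  have h1 := hlt d (Nat.pos_of_mem_divisors hd)
  have h0 : 0 ≤ |y| ^ d := by positivity
  rcases Int.abs_le_one_iff.1 (ArithmeticFunction.abs_moebius_le_one (n := n / d)) with e | e | e
  · rw [e, zpow_zero]
    linarith
  · rw [e, zpow_one]
    exact l1
  · rw [e, zpow_neg_one, ← one_div, le_div_iff₀ (by linarith)]
    nlinarith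

theorem abs_y_le : |Real.goldenConj / Real.goldenRatio| ≤ 2 / 5 := by
  have h5 : √5 * √5 = 5 := Real.mul_self_sqrt (by norm_num)
  have h2 : (11 / 5 : ℝ) ≤ √5 := Real.le_sqrt_of_sq_le (by norm_num)
  have h3 : √5 ≤ (7 / 3 : ℝ) := by rw [Real.sqrt_le_left (by norm_num)]; norm_num
  rw [abs_div, abs_of_pos Real.goldenRatio_pos, abs_of_neg Real.goldenConj_neg,
    div_le_iff₀ Real.goldenRatio_pos, Real.goldenRatio, Real.goldenConj]
  linarith

theorem abs_place_cycPart (e : Golden ℤ →+* ℝ)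
    (he : e = placeφ ∨ e = placeψ) {n : ℕ} (hn : 0 < n) :
    Real.goldenRatio ^ n.totient / 3 ≤ |e (cycPart n)| := by
  have hφ : 0 < Real.goldenRatio := Real.goldenRatio_pos
  have hdiff : ∀ m : ℕ, |e (w ℤ ^ m - (1 - w ℤ) ^ m)| =
      |Real.goldenRatio ^ m - Real.goldenConj ^ m| := fun m => by
    rcases he with rfl | rfl <;> simp only [map_sub, map_pow, map_one, placeφ, placeψ]
    · rw [place_apply]
      simp only [w, Int.cast_zero, Int.cast_one, zero_add, one_mul, Real.one_sub_goldenConj]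
    · rw [place_apply]
      simp only [w, Int.cast_zero, Int.cast_one, zero_add, one_mul, Real.one_sub_goldenRatio]
      rw [abs_sub_comm]
  have h := third_le_of_prod_eq (f := fun d => |e (cycPart d)| / Real.goldenRatio ^ d.totient)
    abs_y_le (fun m hm => ?_) hn
  · rw [le_div_iff₀ (pow_pos hφ _)] at h
    linarith
  · rw [prod_div_distrib, ← abs_prod, ← map_prod, prod_cycPart hm, hdiff, prod_pow_eq_pow_sum,
      Nat.sum_totient, ← abs_of_pos (pow_pos hφ m), ← abs_div, abs_of_pos (pow_pos hφ m), sub_div,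
      div_self (pow_pos hφ m).ne', ← div_pow]

end FA.FibonacciPrimitive
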