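import Fermat.Agent.PisanoPeriod.Basic
import Mathlib.Data.Int.GCD
import Mathlib.Data.Nat.Choose.Basic
import Mathlib.Data.Nat.Prime.Int
import Mathlib.RingTheory.Int.Basic
import Mathlib.RingTheory.PrincipalIdealDomain
import Mathlib.Tactic.Linarith

/-!
# Lifting the exponent for Fibonacci numbers

If `q ∣ F m`, then a power of `q` dividing `F (m p)` divides `F m` for a prime `p ≠ q`, and
`q F m` (or `4 F m` if `q = 2`) for `p = q`.
-/

set_option autoImplicit false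

namespace FA.FibonacciPrimitive

open QuadraticAlgebra FA.PisanoPeriod

theorem pow_expansion {R : Type*} [CommRing R] (a y : R) (k : ℕ) :
    ∃ z, (a + y) ^ (k + 2) = a ^ (k + 2) + ((k + 2 : ℕ) : R) * a ^ (k + 1) * y +
      (((k + 2).choose 2 : ℕ) : R) * a ^ k * y ^ 2 + y ^ 3 * z := by
  induction k with
  | zero =>
    refine ⟨0, ?_⟩
    simp only [zero_add, Nat.choose_self, Nat.cast_one, Nat.cast_ofNat, pow_one, pow_zero]
    ring
  | succ k ih =>
    obtain ⟨z, hz⟩ := ih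
    refine ⟨z * (a + y) + (((k + 2).choose 2 : ℕ) : R) * a ^ k, ?_⟩
    have hc : (k + 2 + 1).choose 2 = (k + 2) + (k + 2).choose 2 := by
      simpa using Nat.choose_succ_succ' (k + 2) 1
    rw [show k + 1 + 2 = k + 2 + 1 by omega, pow_succ, hz, hc]
    push_cast
    ring

theorem fib_mul_eq (m k : ℕ) : ∃ z : ℤ, (((m + 1) * (k + 2)).fib : ℤ) = ((m + 1).fib : ℤ) *
    (((k + 2 : ℕ) : ℤ) * (m.fib : ℤ) ^ (k + 1) +
      (((k + 2).choose 2 : ℕ) : ℤ) * (m.fib : ℤ) ^ k * ((m + 1).fib : ℤ) +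
      ((m + 1).fib : ℤ) ^ 2 * z) := by
  obtain ⟨z, hz⟩ := pow_expansion ((m.fib : ℤ) : Golden ℤ)
    ((((m + 1).fib : ℤ) : Golden ℤ) * w ℤ) k
  obtain ⟨j, hj⟩ : ∃ j, (m + 1) * (k + 2) = j + 1 :=
    ⟨_, (Nat.succ_pred_eq_of_pos (Nat.mul_pos m.succ_pos (k + 1).succ_pos)).symm⟩
  have e : w ℤ ^ (m + 1) = ((m.fib : ℤ) : Golden ℤ) + (((m + 1).fib : ℤ) : Golden ℤ) * w ℤ := by
    rw [w_pow]
    ext <;> simp [w]
  rw [← e, ← pow_mul, hj, w_pow, mul_pow, mul_pow] at hz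
  have h := congrArg im hz
  simp only [← Int.cast_pow, ← Int.cast_natCast (R := Golden ℤ), ← Int.cast_mul, im_add, im_mul,
    re_intCast, im_intCast, Int.cast_id, re_mul, mul_zero, zero_mul, add_zero, zero_add] at h
  refine ⟨(w ℤ ^ 3 * z).im, ?_⟩
  rw [hj]
  simp only [w, pow_two, pow_three, re_mul, im_mul, mul_zero, add_zero, zero_add,
    mul_one, one_mul] at h ⊢
  linear_combination h

/-- The possible gain at `p = q`. -/
def extraFactor (q : ℕ) : ℕ := if q = 2 then 4 else q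

theorem cassini (m : ℕ) :
    ((m.fib : ℤ) ^ 2 + m.fib * (m + 1).fib - ((m + 1).fib : ℤ) ^ 2) = (-1) ^ (m + 1) := by
  induction m with
  | zero => simp
  | succ m ih =>
    rw [Nat.fib_add_two, pow_succ (-1 : ℤ)]
    push_cast
    linear_combination -ih

theorem eight_not_dvd_lucas (m : ℕ) : ¬(8 : ℤ) ∣ 2 * m.fib + (m + 1).fib := by
  intro h
  have hc := cassini m
  obtain ⟨c, hc'⟩ := h
  have hev : (2 : ℤ) ∣ (m + 1).fib := ⟨4 * c - m.fib, by linarith⟩
  obtain ⟨d, hd⟩ := hev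
  have hi : 5 * d * d + (-1) ^ (m + 1) = 16 * c ^ 2 := by
    refine mul_left_cancel₀ (show (4 : ℤ) ≠ 0 by norm_num) ?_
    linear_combination (2 * (m.fib : ℤ) + (m + 1).fib + 8 * c) * hc' - 4 * hc -
      5 * (((m + 1).fib : ℤ) + 2 * d) * hd
  have h16 := congrArg (Int.cast : ℤ → ZMod 16) hi
  push_cast at h16
  rw [show (16 : ZMod 16) = 0 by decide, zero_mul] at h16
  have key : ∀ x : ZMod 16, 5 * x * x + 1 ≠ 0 ∧ 5 * x * x + -1 ≠ 0 := by decide
  rcases neg_one_pow_eq_or (ZMod 16) (m + 1) with e | e <;> rw [e] at h16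
  · exact (key _).1 h16
  · exact (key _).2 h16

/-- Lifting the exponent. -/
theorem dvd_of_dvd_fib_mul {q p m v : ℕ} (hq : q.Prime) (hp : p.Prime) (hm : 0 < m)
    (hqm : q ∣ m.fib) (h : q ^ v ∣ (m * p).fib) :
    q ^ v ∣ (if p = q then extraFactor q else 1) * m.fib := by
  obtain ⟨j, rfl⟩ : ∃ j, m = j + 1 := ⟨m - 1, by omega⟩
  obtain ⟨k, rfl⟩ : ∃ k, p = k + 2 := ⟨p - 2, by have := hp.two_le; omega⟩
  obtain ⟨z, hz⟩ := fib_mul_eq j k
  set a : ℤ := ((j.fib : ℕ) : ℤ)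
  set b : ℤ := (((j + 1).fib : ℕ) : ℤ)
  have hcop : ¬(q : ℤ) ∣ a := fun h => by
    have := Nat.dvd_gcd (Int.natCast_dvd_natCast.1 h) hqm
    rw [(Nat.fib_coprime_fib_succ j).gcd_eq_one] at this
    exact hq.ne_one (Nat.dvd_one.1 this)
  have hb : (q : ℤ) ∣ b := Int.natCast_dvd_natCast.2 hqm
  have hqP : Prime (q : ℤ) := Nat.prime_iff_prime_int.1 hq
  have key : ∀ (c : ℤ) (e : ℕ), ((j + 1) * (k + 2)).fib = (e : ℤ) * b * c → ¬(q : ℤ) ∣ c →
      q ^ v ∣ e * (j + 1).fib := fun c e hc hqc => by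
    have h' : ((q : ℤ)) ^ v ∣ (e : ℤ) * b * c := hc ▸ (by exact_mod_cast h)
    have h'' : (q : ℤ) ^ v ∣ (e : ℤ) * (((j + 1).fib : ℕ) : ℤ) :=
      ((hqP.coprime_iff_not_dvd.2 hqc).pow_left).dvd_of_dvd_mul_right h'
    exact_mod_cast h''
  split_ifs with hpq
  · subst hpq
    rw [extraFactor]
    split_ifs with h2
    · obtain rfl : k = 0 := by omega
      simp only [zero_add, Nat.choose_self, Nat.cast_one, Nat.cast_ofNat, pow_one, pow_zero] at hz
      have h8 := eight_not_dvd_lucas j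
      have hL : ¬(2 : ℤ) ^ 3 ∣ 2 * a + b := by norm_num [a, b]; exact h8
      have hz0 : (((j + 1) * 2).fib : ℤ) = b * (2 * a + b) := by
        have h1 := congrArg im (w_pow ℤ (j + 1 + j))
        rw [show j + 1 + j + 1 = (j + 1) * 2 by omega, pow_mul, w_pow, pow_two] at h1
        simp only [im_mul] at h1
        rw [← h1]
        ring
      have h2b : (2 : ℤ) ∣ b := by simpa using hb
      have h2L : (2 : ℤ) ∣ 2 * a + b := dvd_add (dvd_mul_right 2 a) h2b
      obtain ⟨u, hu⟩ := h2L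
      by_cases hu2 : (2 : ℤ) ∣ u
      · obtain ⟨t, rfl⟩ := hu2
        refine key t 4 (by rw [hz0, hu]; push_cast; ring) fun ht => hL ?_
        obtain ⟨s, rfl⟩ : (2 : ℤ) ∣ t := by simpa using ht
        exact ⟨s, by rw [hu]; ring⟩
      · exact (key u 2 (by rw [hz0, hu]; push_cast; ring) (by simpa using hu2)).trans
          (mul_dvd_mul_right (by norm_num) _)
    · have hodd : Odd (k + 2) := hp.odd_of_ne_two h2
      obtain ⟨i, hi⟩ := hodd
      have hch : (k + 2).choose 2 = (k + 2) * i := by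
        rw [Nat.choose_two_right, hi, Nat.add_sub_cancel, ← mul_assoc, mul_comm (2 * i + 1) 2,
          mul_assoc, Nat.mul_div_cancel_left _ two_pos]
      obtain ⟨s, hs⟩ := hb
      refine key (a ^ (k + 1) + (i : ℤ) * a ^ k * b + b * s * z) (k + 2)
        (by rw [hz, hch, hs]; push_cast; ring) fun h => hcop (hqP.dvd_of_dvd_pow (n := k + 1) ?_)
      have h' := dvd_sub h ((dvd_mul_of_dvd_right (Dvd.intro s hs.symm) ((i : ℤ) * a ^ k)).add
        (dvd_mul_of_dvd_left (dvd_mul_of_dvd_left (Dvd.intro s hs.symm) s) z))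
      simpa [add_assoc] using h'
  · refine key (((k + 2 : ℕ) : ℤ) * a ^ (k + 1) + (((k + 2).choose 2 : ℕ) : ℤ) * a ^ k * b +
      b ^ 2 * z) 1 (by rw [hz]; push_cast; ring) fun h => ?_
    have h' := dvd_sub h ((dvd_mul_of_dvd_right hb ((((k + 2).choose 2 : ℕ) : ℤ) * a ^ k)).add
      (dvd_mul_of_dvd_left (dvd_pow hb two_ne_zero) z))
    rw [add_assoc, add_sub_cancel_right] at h'
    rcases hqP.dvd_or_dvd h' with h'' | h''
    · exact hpq ((Nat.prime_dvd_prime_iff_eq hq hp).1 (Int.natCast_dvd_natCast.1 h'')).symm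
    · exact hcop (hqP.dvd_of_dvd_pow h'')

end FA.FibonacciPrimitive
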