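import Fermat.Agent.FibonacciPrimitive.Cyclotomic
import Fermat.Agent.FibonacciPrimitive.Lifting
import Fermat.Agent.PisanoPeriod.Primes

/-!
# Carmichael's theorem

Without a primitive prime divisor `F n` divides `c ⬝ lcm F (n / p)` with a small `c`, so the
cyclotomic part divides `c`, which its size forbids.
-/

set_option autoImplicit false

noncomputable section

namespace FA.FibonacciPrimitive

open QuadraticAlgebra FA.PisanoPeriod Finset

theorem fib_five_eq : Nat.fib 5 = 5 := by decide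

/-- The rank of apparition. -/
theorem exists_rank {q : ℕ} (hq : q.Prime) : ∃ r, 2 < r ∧ (∀ j, q ∣ j.fib ↔ r ∣ j) ∧
    (q ≠ 5 → r ∣ q - 1 ∨ r ∣ q + 1) ∧ (q = 5 → r = 5) := by
  classical
  have hex : ∃ j, 0 < j ∧ q ∣ j.fib := by
    rcases eq_or_ne q 5 with rfl | h5
    · exact ⟨5, by norm_num, fib_five_eq.symm ▸ dvd_rfl⟩
    · rcases prime_dvd_fib_pred_or_succ hq h5 with h | h
      · exact ⟨q - 1, by have := hq.two_le; omega, h⟩
      · exact ⟨q + 1, by omega, h⟩
  obtain ⟨hr0, hr⟩ := Nat.find_spec hex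
  have hiff : ∀ j, q ∣ j.fib ↔ Nat.find hex ∣ j := fun j => by
    refine ⟨fun h => ?_, fun h => hr.trans (Nat.fib_dvd _ _ h)⟩
    have hg : q ∣ (Nat.gcd (Nat.find hex) j).fib := by
      rw [Nat.fib_gcd]
      exact Nat.dvd_gcd hr h
    have hle := Nat.find_min' hex ⟨Nat.gcd_pos_of_pos_left j hr0, hg⟩
    have heq := le_antisymm (Nat.le_of_dvd hr0 (Nat.gcd_dvd_left _ j)) hle
    exact heq ▸ Nat.gcd_dvd_right _ j
  refine ⟨Nat.find hex, ?_, hiff, fun h5 => (prime_dvd_fib_pred_or_succ hq h5).imp (hiff _).1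
    (hiff _).1, fun h5 => ?_⟩
  · by_contra h
    have := hq.two_le
    rcases (by omega : Nat.find hex = 1 ∨ Nat.find hex = 2) with e | e <;> rw [e] at hr <;>
      simp at hr <;> omega
  · subst h5
    rcases (Nat.dvd_prime Nat.prime_five).1 ((hiff 5).1 (fib_five_eq.symm ▸ dvd_rfl)) with h | h
    · rw [h] at hr
      simp at hr
    · exact h

theorem four_le_totient {n : ℕ} (hn0 : n ≠ 0) (hn : ¬n ∣ 12) : 4 ≤ n.totient := by
  by_contra h
  refine hn ((Nat.dvd_iff_prime_pow_dvd_dvd _ _).2 fun p k hp hd => ?_)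
  rcases Nat.eq_zero_or_pos k with rfl | hk
  · simp
  obtain ⟨j, rfl⟩ : ∃ j, k = j + 1 := ⟨k - 1, by omega⟩
  have hle : (p ^ (j + 1)).totient ≤ n.totient :=
    Nat.le_of_dvd (Nat.totient_pos.2 (Nat.pos_of_ne_zero hn0)) (Nat.totient_dvd_of_dvd hd)
  rw [Nat.totient_prime_pow_succ hp] at hle
  have h1 : 1 ≤ p ^ j := Nat.one_le_pow _ _ hp.pos
  have h2 := hp.two_le
  have hp3 : p ≤ 4 := by nlinarith [show p - 1 + 1 = p by omega]
  interval_cases p
  · rcases j with _ | _ | j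
    · norm_num
    · norm_num
    · rw [pow_succ, pow_succ] at hle
      have := Nat.one_le_two_pow (n := j)
      omega
  · rcases j with _ | j
    · norm_num
    · rw [pow_succ] at hle
      have := Nat.one_le_pow j 3 (by norm_num)
      omega
  · exact absurd hp (by norm_num)

/-- A prime which can gain at the step from `F (n / q)` to `F n`. -/
def IsSpecial (n q : ℕ) : Prop :=
  q ∈ n.primeFactors ∧ q ∣ (n / q).fib ∧ ∀ p ∈ n.primeFactors, q ∣ (n / p).fib → p = q

variable {n : ℕ}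

theorem special_dvd_rank (hn : n ≠ 0) {q : ℕ} (hs : IsSpecial n q) {r : ℕ}
    (hr : ∀ j, q ∣ j.fib ↔ r ∣ j) :
    r ∣ n / q ∧ ∀ p, p.Prime → p ≠ q → r * p ∣ n → False := by
  refine ⟨(hr _).1 hs.2.1, fun p hp hne h => hne (hs.2.2 p ?_ ((hr _).2 ?_))⟩
  · exact Nat.mem_primeFactors.2 ⟨hp, (dvd_mul_left p r).trans h, hn⟩
  · exact Nat.dvd_div_of_mul_dvd (by rwa [mul_comm])

theorem special_other_dvd (hn : n ≠ 0) {q : ℕ} (hs : IsSpecial n q) {r : ℕ}
    (hr : ∀ j, q ∣ j.fib ↔ r ∣ j) {p : ℕ} (hp : p.Prime) (hne : p ≠ q) (hpn : p ∣ n) : p ∣ r := by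
  by_contra h
  have hrn : r ∣ n :=
    ((hr _).1 hs.2.1).trans (Nat.div_dvd_of_dvd (Nat.dvd_of_mem_primeFactors hs.1))
  exact (special_dvd_rank hn hs hr).2 p hp hne
    ((hp.coprime_iff_not_dvd.2 h).symm.mul_dvd_of_dvd_of_dvd hrn hpn)

theorem special_two (hn : n ≠ 0) (h6 : n ≠ 6) (h12 : n ≠ 12) (hs : IsSpecial n 2) : 24 ∣ n := by
  obtain ⟨r, -, hr, -, -⟩ := exists_rank Nat.prime_two
  have hr3 : r = 3 := ((Nat.dvd_prime Nat.prime_three).1 ((hr 3).1 (by decide))).resolve_left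
    fun h => by
      have := (hr 1).2 (h ▸ dvd_rfl)
      simp at this
  subst hr3
  obtain ⟨h1, h2⟩ := special_dvd_rank hn hs hr
  obtain ⟨a, ha⟩ := h1
  have hn6 : n = 6 * a := by
    rw [← Nat.mul_div_cancel' (Nat.dvd_of_mem_primeFactors hs.1), ha]
    ring
  have hp2 : ∀ p, p.Prime → p ∣ a → p = 2 := fun p hp hd => by
    by_contra hne
    have hp3 := (Nat.prime_dvd_prime_iff_eq hp Nat.prime_three).1
      (special_other_dvd hn hs hr hp hne (hn6 ▸ hd.mul_left 6))
    subst hp3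
    exact h2 3 hp hne (hn6 ▸ Nat.mul_dvd_mul (by norm_num) hd)
  have ha0 : a ≠ 0 := fun h => hn (by rw [hn6, h, mul_zero])
  obtain ⟨c, hc⟩ : ∃ c, a = 2 ^ c :=
    ⟨_, Nat.eq_prime_pow_of_unique_prime_dvd ha0 fun {d} hd hd' => hp2 d hd hd'⟩
  rcases c with _ | _ | c
  · exact absurd (by rw [hn6, hc]; rfl) h6
  · exact absurd (by rw [hn6, hc]; rfl) h12
  · exact ⟨2 ^ c, by rw [hn6, hc]; ring⟩

theorem special_three (hn : n ≠ 0) (h12 : n ≠ 12) (hs : IsSpecial n 3) : 36 ∣ n ∧ ¬8 ∣ n := by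
  obtain ⟨r, hr2, hr, -, -⟩ := exists_rank Nat.prime_three
  have h4 : r ∣ 4 := (hr 4).1 (by decide)
  have := Nat.le_of_dvd (by norm_num) h4
  obtain rfl : r = 4 := by
    interval_cases r
    · norm_num at h4
    · rfl
  obtain ⟨h1, h2⟩ := special_dvd_rank hn hs hr
  have h8 : ¬8 ∣ n := fun h => h2 2 Nat.prime_two (by norm_num) h
  obtain ⟨a, ha⟩ := h1
  have hn12 : n = 12 * a := by
    rw [← Nat.mul_div_cancel' (Nat.dvd_of_mem_primeFactors hs.1), ha]
    ring
  refine ⟨?_, h8⟩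
  obtain ⟨p, hp, hpa⟩ := Nat.exists_prime_and_dvd (show a ≠ 1 by omega)
  rcases eq_or_ne p 3 with rfl | hne
  · exact hn12 ▸ Nat.mul_dvd_mul_left 12 hpa
  · have hp4 : p ∣ 2 ^ 2 := special_other_dvd hn hs hr hp hne (hn12 ▸ hpa.mul_left 12)
    have hp2 := (Nat.prime_dvd_prime_iff_eq hp Nat.prime_two).1 (hp.dvd_of_dvd_pow hp4)
    subst hp2
    exact absurd (hn12 ▸ (dvd_trans (by norm_num) (Nat.mul_dvd_mul_left 12 hpa))) h8

theorem special_unique (hn : n ≠ 0) (h6 : n ≠ 6) (h12 : n ≠ 12) {q q' : ℕ} (hs : IsSpecial n q)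
    (hs' : IsSpecial n q') : q = q' := by
  wlog hlt : q ≤ q' generalizing q q'
  · exact (this hs' hs (by omega)).symm
  by_contra hne
  have hq := Nat.prime_of_mem_primeFactors hs.1
  have hq' := Nat.prime_of_mem_primeFactors hs'.1
  obtain ⟨r, -, hr, hr1, hr5⟩ := exists_rank hq
  have hd := special_other_dvd hn hs hr hq' (Ne.symm hne) (Nat.dvd_of_mem_primeFactors hs'.1)
  rcases eq_or_ne q 5 with h5 | h5
  · rw [hr5 h5] at hd
    have := Nat.le_of_dvd (by norm_num) hd
    omega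
  · have := hq.two_le
    rcases hr1 h5 with h | h
    · have := Nat.le_of_dvd (by omega) (hd.trans h)
      omega
    · have := Nat.le_of_dvd (by omega) (hd.trans h)
      have hq'1 : q' = q + 1 := by omega
      rcases hq.eq_two_or_odd with rfl | ho
      · subst hq'1
        exact (special_three hn h12 hs').2 ((by norm_num : 8 ∣ 24).trans (special_two hn h6 h12 hs))
      · rcases hq'.eq_two_or_odd with h2 | h2 <;> omega

theorem pow_gt_of_seven_le {q : ℕ} (hq : 7 ≤ q) : 3 * (q : ℝ) < (8 / 5) ^ (2 * (q - 1)) := by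
  induction q, hq using Nat.le_induction with
  | base => norm_num
  | succ q hq ih =>
    rw [show 2 * (q + 1 - 1) = 2 * (q - 1) + 2 by omega, pow_add]
    have : (7 : ℝ) ≤ q := by exact_mod_cast hq
    push_cast
    nlinarith

theorem golden_ge : (8 / 5 : ℝ) ≤ Real.goldenRatio := by
  have h : (11 / 5 : ℝ) ≤ √5 := Real.le_sqrt_of_sq_le (by norm_num)
  rw [Real.goldenRatio]
  linarith

theorem golden_pow_ge {k m : ℕ} (h : k ≤ m) : (8 / 5 : ℝ) ^ k ≤ Real.goldenRatio ^ m :=
  (pow_le_pow_right₀ (by norm_num) h).trans (pow_le_pow_left₀ (by norm_num) golden_ge m)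

theorem special_bound (hn : n ≠ 0) (h6 : n ≠ 6) (h12 : n ≠ 12) {q : ℕ} (hs : IsSpecial n q) :
    (extraFactor q : ℝ) < Real.goldenRatio ^ n.totient / 3 := by
  have hpos : 0 < n.totient := Nat.totient_pos.2 (Nat.pos_of_ne_zero hn)
  have key : ∀ d, d ∣ n → ∀ k, k ≤ d.totient → (8 / 5 : ℝ) ^ k ≤ Real.goldenRatio ^ n.totient :=
    fun d hd k hk => golden_pow_ge (hk.trans (Nat.le_of_dvd hpos (Nat.totient_dvd_of_dvd hd)))
  have hq := Nat.prime_of_mem_primeFactors hs.1
  have hqn := Nat.dvd_of_mem_primeFactors hs.1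
  rcases lt_or_ge q 7 with hlt | hge
  · have := hq.two_le
    interval_cases q
    · have := key 24 (special_two hn h6 h12 hs) 8 (by decide)
      norm_num [extraFactor] at this ⊢
      linarith
    · have := key 36 (special_three hn h12 hs).1 12 (by decide)
      norm_num [extraFactor] at this ⊢
      linarith
    · exact absurd hq (by norm_num)
    · obtain ⟨r, -, hr, -, hr5⟩ := exists_rank hq
      obtain rfl := hr5 rfl
      have h25 : 25 ∣ n :=
        (Nat.mul_dvd_mul_left 5 (special_dvd_rank hn hs hr).1).trans (Nat.mul_div_cancel' hqn).dvd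
      have := key 25 h25 20 (by decide)
      norm_num [extraFactor] at this ⊢
      linarith
    · exact absurd hq (by norm_num)
  · obtain ⟨r, hr2, hr, hr1, -⟩ := exists_rank hq
    have hqr : ¬q ∣ r := fun h => by
      rcases hr1 (by omega) with h' | h'
      · have := Nat.le_of_dvd (by omega) (h.trans h')
        omega
      · have := Nat.le_of_dvd (by omega) ((Nat.dvd_add_right dvd_rfl).1 (h.trans h'))
        omega
    have hcop := hq.coprime_iff_not_dvd.2 hqr
    have hrn : q * r ∣ n :=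
      (Nat.mul_dvd_mul_left q (special_dvd_rank hn hs hr).1).trans (Nat.mul_div_cancel' hqn).dvd
    have h2 : 2 ≤ r.totient := by
      have := Nat.totient_pos.2 (show 0 < r by omega)
      obtain ⟨e, he⟩ := Nat.totient_even hr2
      omega
    have := key (q * r) hrn (2 * (q - 1)) (by
      rw [Nat.totient_mul hcop, Nat.totient_prime hq, mul_comm]
      exact Nat.mul_le_mul_left _ h2)
    have := pow_gt_of_seven_le hge
    rw [extraFactor, if_neg (by omega)]
    linarith

/-- If `F n ∣ c ⬝ lcm F (n / p)` then `φ ^ φ(n) / 3 ≤ c`. -/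
theorem le_of_dvd_lcm (hn : 2 ≤ n) {c : ℕ} (hcpos : 0 < c)
    (h : n.fib ∣ c * n.primeFactors.lcm fun p => (n / p).fib) :
    Real.goldenRatio ^ n.totient / 3 ≤ c := by
  set G := ∏ d ∈ (n.divisors.erase 1).erase n, cycPart d with hG
  have hdiv : ∀ z : ℕ, (z : Golden ℤ) ∣ G ↔ z ∣ G.re.natAbs ∧ z ∣ G.im.natAbs := fun z => by
    rw [← Int.cast_natCast (R := Golden ℤ), intCast_dvd_iff, Int.natCast_dvd, Int.natCast_dvd]
  have hL : ((n.primeFactors.lcm fun p => (n / p).fib : ℕ) : Golden ℤ) ∣ G := by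
    have hp : ∀ p ∈ n.primeFactors, ((n / p).fib : Golden ℤ) ∣ G := fun p hp =>
      fib_dvd_prod (by omega) (Nat.div_dvd_of_dvd (Nat.dvd_of_mem_primeFactors hp))
        (Nat.div_lt_self (by omega) (Nat.prime_of_mem_primeFactors hp).one_lt)
    rw [hdiv]
    exact ⟨Finset.lcm_dvd fun p hpm => ((hdiv _).1 (hp p hpm)).1,
      Finset.lcm_dvd fun p hpm => ((hdiv _).1 (hp p hpm)).2⟩
  have hc : ((n.fib : ℕ) : Golden ℤ) ∣ (c : Golden ℤ) * G := by
    refine dvd_trans ?_ (mul_dvd_mul_left _ hL)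
    rw [← Nat.cast_mul]
    exact Nat.cast_dvd_cast h
  obtain ⟨z, hz⟩ := hc
  rw [fib_eq_mul hn, ← hG] at hz
  have hF : ∀ e : Golden ℤ →+* ℝ, (c : ℝ) = e (cycPart n) * e z := fun e => by
    have hne : e G ≠ 0 := fun h0 => by
      have h1 := congrArg e (fib_eq_mul hn)
      rw [← hG, map_mul, h0, mul_zero, map_natCast, Nat.cast_eq_zero, Nat.fib_eq_zero] at h1
      omega
    refine mul_right_cancel₀ hne ?_
    have h1 := congrArg e hz
    rw [map_mul, map_mul, map_mul, map_natCast] at h1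
    linear_combination h1
  have b1 := abs_place_cycPart placeφ (Or.inl rfl) (show 0 < n by omega)
  have b2 := abs_place_cycPart placeψ (Or.inr rfl) (show 0 < n by omega)
  have hnorm : placeφ z * placeψ z = ((z.re ^ 2 + z.re * z.im - z.im ^ 2 : ℤ) : ℝ) := by
    rw [placeφ, placeψ, place_apply, place_apply]
    push_cast
    linear_combination ((z.re : ℝ) * z.im) * Real.goldenRatio_add_goldenConj +
      ((z.im : ℝ) ^ 2) * Real.goldenRatio_mul_goldenConj
  have hprod : (c : ℝ) ^ 2 =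
      placeφ (cycPart n) * placeψ (cycPart n) * (placeφ z * placeψ z) := by
    linear_combination ((c : ℝ)) * hF placeφ + placeφ (cycPart n) * placeφ z * hF placeψ
  have hN : (z.re ^ 2 + z.re * z.im - z.im ^ 2 : ℤ) ≠ 0 := fun h0 => by
    rw [hnorm, h0, Int.cast_zero, mul_zero] at hprod
    have : (0 : ℝ) < c := Nat.cast_pos.2 hcpos
    nlinarith
  have h1 : (1 : ℝ) ≤ |placeφ z * placeψ z| := by
    rw [hnorm, ← Int.cast_abs]
    exact_mod_cast Int.one_le_abs hN
  have hsq : (Real.goldenRatio ^ n.totient / 3) ^ 2 ≤ (c : ℝ) ^ 2 := by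
    have hC : (0 : ℝ) ≤ Real.goldenRatio ^ n.totient / 3 := by positivity
    calc (Real.goldenRatio ^ n.totient / 3) ^ 2
        ≤ |placeφ (cycPart n)| * |placeψ (cycPart n)| * 1 := by
          rw [mul_one, sq]
          exact mul_le_mul b1 b2 hC (abs_nonneg _)
      _ ≤ |placeφ (cycPart n)| * |placeψ (cycPart n)| * |placeφ z * placeψ z| :=
          mul_le_mul_of_nonneg_left h1 (by positivity)
      _ = (c : ℝ) ^ 2 := by rw [← abs_mul, ← abs_mul, ← hprod, abs_pow, Nat.abs_cast]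
  exact (pow_le_pow_iff_left₀ (by positivity) (Nat.cast_nonneg c) two_ne_zero).1 hsq

/-- **Carmichael's theorem.** -/
theorem exists_primitive_prime (hn : 3 ≤ n) (h6 : n ≠ 6) (h12 : n ≠ 12) :
    ∃ p, p.Prime ∧ p ∣ n.fib ∧ (∀ j, 0 < j → j < n → ¬p ∣ j.fib) ∧
      (n ≠ 5 → n ∣ p - 1 ∨ n ∣ p + 1) := by
  classical
  suffices h : ∃ p, p.Prime ∧ p ∣ n.fib ∧ ∀ j, 0 < j → j < n → ¬p ∣ j.fib by
    obtain ⟨p, hp, hd, hj⟩ := h
    refine ⟨p, hp, hd, hj, fun h5 => ?_⟩
    obtain ⟨r, hr2, hr, hr1, hr5⟩ := exists_rank hp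
    have hrn : r = n := ((Nat.le_of_dvd (by omega) ((hr n).1 hd)).eq_or_lt).resolve_right
      fun hlt => hj r (by omega) hlt ((hr r).2 dvd_rfl)
    exact hrn ▸ hr1 fun hp5 => h5 (hrn ▸ hr5 hp5)
  by_cases h4 : n ∣ 12
  · have := Nat.le_of_dvd (by norm_num) h4
    interval_cases n <;>
      first
        | omega
        | exact ⟨2, Nat.prime_two, by decide, fun j h1 h2 => by interval_cases j <;> decide⟩
        | exact ⟨3, Nat.prime_three, by decide, fun j h1 h2 => by interval_cases j <;> decide⟩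
  have hn0 : n ≠ 0 := by omega
  by_contra hno
  push Not at hno
  set L := n.primeFactors.lcm fun p => (n / p).fib with hL
  have hlocal : ∀ q v : ℕ, q.Prime → 0 < v → q ^ v ∣ n.fib →
      q ^ v ∣ L ∨ (IsSpecial n q ∧ q ^ v ∣ extraFactor q * L) := by
    intro q v hq hv h
    have hqn : q ∣ n.fib := (dvd_pow_self q hv.ne').trans h
    obtain ⟨j, hj0, hjn, hj⟩ := hno q hq hqn
    obtain ⟨r, hr2, hr, -, -⟩ := exists_rank hq
    have hrn := (hr n).1 hqn
    have hlt : r < n := lt_of_le_of_lt (Nat.le_of_dvd hj0 ((hr j).1 hj)) hjn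
    obtain ⟨e, he⟩ := hrn
    obtain ⟨p, hp, hpe⟩ := Nat.exists_prime_and_dvd
      (show e ≠ 1 from fun h1 => by rw [h1, mul_one] at he; omega)
    have hpn : p ∈ n.primeFactors :=
      Nat.mem_primeFactors.2 ⟨hp, he ▸ hpe.mul_left r, hn0⟩
    have hqp : q ∣ (n / p).fib := (hr _).2
      ⟨e / p, by rw [he, Nat.mul_div_assoc r hpe]⟩
    have lift : ∀ p' ∈ n.primeFactors, q ∣ (n / p').fib →
        q ^ v ∣ (if p' = q then extraFactor q else 1) * (n / p').fib := fun p' hp' hd =>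
      dvd_of_dvd_fib_mul hq (Nat.prime_of_mem_primeFactors hp') (Nat.div_pos
        (Nat.le_of_dvd (by omega) (Nat.dvd_of_mem_primeFactors hp'))
        (Nat.prime_of_mem_primeFactors hp').pos) hd
        (by rwa [Nat.div_mul_cancel (Nat.dvd_of_mem_primeFactors hp')])
    by_cases hs : ∀ p' ∈ n.primeFactors, q ∣ (n / p').fib → p' = q
    · have hpq := hs p hpn hqp
      subst hpq
      have h' := lift p hpn hqp
      rw [if_pos rfl] at h'
      exact Or.inr ⟨⟨hpn, hqp, hs⟩, h'.trans (Nat.mul_dvd_mul_left _ (dvd_lcm hpn))⟩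
    · push Not at hs
      obtain ⟨p', hp', hd, hne⟩ := hs
      have h' := lift p' hp' hd
      rw [if_neg hne, one_mul] at h'
      exact Or.inl (h'.trans (dvd_lcm hp'))
  by_cases hspec : ∃ q, IsSpecial n q
  · obtain ⟨q, hs⟩ := hspec
    have hc : 0 < extraFactor q := by
      have := (Nat.prime_of_mem_primeFactors hs.1).pos
      unfold extraFactor
      split_ifs <;> omega
    have h : n.fib ∣ extraFactor q * L := (Nat.dvd_iff_prime_pow_dvd_dvd _ _).2 fun p k hp hd => by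
      rcases Nat.eq_zero_or_pos k with rfl | hk
      · simp
      rcases hlocal p k hp hk hd with h | ⟨hs', h⟩
      · exact h.mul_left _
      · rwa [← special_unique hn0 h6 h12 hs' hs]
    linarith [le_of_dvd_lcm (by omega) hc h, special_bound hn0 h6 h12 hs]
  · have h : n.fib ∣ 1 * L := (Nat.dvd_iff_prime_pow_dvd_dvd _ _).2 fun p k hp hd => by
      rcases Nat.eq_zero_or_pos k with rfl | hk
      · simp
      rcases hlocal p k hp hk hd with h | ⟨hs', -⟩
      · rwa [one_mul]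
      · exact absurd ⟨p, hs'⟩ hspec
    have h1 := le_of_dvd_lcm (by omega) one_pos h
    have h2 := golden_pow_ge (four_le_totient hn0 h4)
    norm_num at h1 h2
    linarith

/-- The exceptional indices. -/
theorem no_primitive_prime (p : ℕ) (hp : p.Prime) (hn : n = 1 ∨ n = 2 ∨ n = 6 ∨ n = 12)
    (h : p ∣ n.fib) : ∃ j, 0 < j ∧ j < n ∧ p ∣ j.fib := by
  rcases hn with rfl | rfl | rfl | rfl
  · exact absurd (Nat.dvd_one.1 (by simpa using h)) hp.ne_one
  · exact absurd (Nat.dvd_one.1 (by simpa using h)) hp.ne_one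
  · have e : Nat.fib 6 = 2 ^ 3 := by decide
    rw [e] at h
    obtain rfl := (Nat.prime_dvd_prime_iff_eq hp Nat.prime_two).1 (hp.dvd_of_dvd_pow h)
    exact ⟨3, by norm_num, by norm_num, by decide⟩
  · have e : Nat.fib 12 = 2 ^ 4 * 3 ^ 2 := by decide
    rw [e] at h
    rcases hp.dvd_mul.1 h with h | h
    · obtain rfl := (Nat.prime_dvd_prime_iff_eq hp Nat.prime_two).1 (hp.dvd_of_dvd_pow h)
      exact ⟨3, by norm_num, by norm_num, by decide⟩
    · obtain rfl := (Nat.prime_dvd_prime_iff_eq hp Nat.prime_three).1 (hp.dvd_of_dvd_pow h)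
      exact ⟨4, by norm_num, by norm_num, by decide⟩

end FA.FibonacciPrimitive
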